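import Fermat.Agent.S56.GW.Seams
import Fermat.Agent.S55.Places.Local
import Fermat.Agent.S55.LevelFields

/-!
# S56, node [GW-UNR] (prefix `s56gwu_`)

`s56gwu_main : s56gw_Unr_stmt`: a continuous class unramified outside `S ∪ T` which is locally
trivial at every prime of `T` (where `M` is unramified) is unramified outside `S`.

The kernel `{s | c s = 0}` of a cocycle is a subgroup `K`, and `c (g * s) = c g ↔ s ∈ K`.  It
contains the fixing subgroup of the level field, hence is open and closed, so it is the fixing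
subgroup of its fixed field.  Local triviality at `q ∈ T` and `M` unramified at `q` put all the
inertia groups above `q` into `K`.
-/

set_option autoImplicit false

open CategoryTheory Module groupCohomology ExtCitation

open scoped Pointwise

namespace Fermat.Agent.S56

local notation "GQ" => (AlgebraicClosure ℚ ≃ₐ[ℚ] AlgebraicClosure ℚ)
local notation "Qbar" => AlgebraicClosure ℚ

section ker

variable {k : Type} [CommRing k] (M : Rep.{0} k GQ)

/-- The kernel of a `1`-cocycle is a subgroup. -/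
def s56gwu_ker (c : cocycles₁ M) : Subgroup GQ where
  carrier := {s | (c : GQ → M) s = 0}
  one_mem' := cocycles₁_map_one c
  mul_mem' := by
    intro a b ha hb
    have h := (mem_cocycles₁_iff (c : GQ → M)).1 c.2 a b
    simp only [Set.mem_ofPred_eq] at ha hb ⊢
    rw [h, ha, hb, map_zero, add_zero]
  inv_mem' := by
    intro a ha
    have h := (mem_cocycles₁_iff (c : GQ → M)).1 c.2 a⁻¹ a
    simp only [Set.mem_ofPred_eq] at ha ⊢
    rw [inv_mul_cancel, cocycles₁_map_one, ha, map_zero, zero_add] at h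
    exact h.symm

theorem s56gwu_mem_ker (c : cocycles₁ M) (s : GQ) :
    s ∈ s56gwu_ker M c ↔ (c : GQ → M) s = 0 := Iff.rfl

theorem s56gwu_ker_const (c : cocycles₁ M) (g s : GQ) (hs : s ∈ s56gwu_ker M c) :
    (c : GQ → M) (g * s) = (c : GQ → M) g := by
  have h := (mem_cocycles₁_iff (c : GQ → M)).1 c.2 g s
  rw [h, (s56gwu_mem_ker M c s).1 hs, map_zero, zero_add]

theorem s56gwu_ker_of_const (c : cocycles₁ M) (s : GQ)
    (hs : ∀ g : GQ, (c : GQ → M) (g * s) = (c : GQ → M) g) : s ∈ s56gwu_ker M c := by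
  have h := hs 1
  rw [one_mul, cocycles₁_map_one] at h
  exact h

/-- Conjugates of elements of the kernel acting trivially on `M` are in the kernel. -/
theorem s56gwu_ker_conj (c : cocycles₁ M) (τ i : GQ) (hi : i ∈ s56gwu_ker M c)
    (htriv : M.ρ (τ * i * τ⁻¹) = 1) : τ * i * τ⁻¹ ∈ s56gwu_ker M c := by
  have hc := (mem_cocycles₁_iff (c : GQ → M)).1 c.2
  have hi0 : (c : GQ → M) i = 0 := hi
  -- c(τ i τ⁻¹ · τ) = c(τ i) = c τ   and   c(τ i τ⁻¹ · τ) = (τ i τ⁻¹) c τ + c(τ i τ⁻¹)
  have h1 : (c : GQ → M) (τ * i * τ⁻¹ * τ) = (c : GQ → M) τ := by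
    rw [inv_mul_cancel_right, hc τ i, hi0, map_zero, zero_add]
  have h2 := hc (τ * i * τ⁻¹) τ
  rw [h1, htriv] at h2
  show (c : GQ → M) (τ * i * τ⁻¹) = 0
  simpa using h2.symm

end ker

section fixed

/-- A subgroup containing the fixing subgroup of a finite extension is the fixing subgroup of its
fixed field, and that fixed field is finite. -/
theorem s56gwu_fixing_fixed (K : Subgroup GQ) (F : IntermediateField ℚ Qbar)
    [FiniteDimensional ℚ F] (h : F.fixingSubgroup ≤ K) :
    (IntermediateField.fixedField K).fixingSubgroup = K ∧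
      IntermediateField.fixedField K ≤ F := by
  have : Algebra.IsAlgebraic ℚ Qbar := AlgebraicClosure.isAlgebraic ℚ
  have : IsAlgClosure ℚ Qbar := ⟨inferInstance, inferInstance⟩
  have : IsGalois ℚ Qbar := inferInstance
  have hopen : IsOpen (K : Set GQ) :=
    Subgroup.isOpen_mono h (IntermediateField.fixingSubgroup_isOpen F)
  have hclosed : IsClosed (K : Set GQ) := Subgroup.isClosed_of_isOpen K hopen
  refine ⟨InfiniteGalois.fixingSubgroup_fixedField ⟨K, hclosed⟩, ?_⟩
  have h2 : IntermediateField.fixedField K ≤ IntermediateField.fixedField F.fixingSubgroup :=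
    fun x hx => by
      rw [IntermediateField.mem_fixedField_iff] at hx ⊢
      exact fun σ hσ => hx σ (h hσ)
  rwa [InfiniteGalois.fixedField_fixingSubgroup] at h2

end fixed

section main

variable {p : ℕ} [Fact p.Prime]

/-- The range of `primeLocalToGlobal q` is the decomposition group of `primeLocalPlace q`. -/
theorem s56gwu_range (q : Nat.Primes) :
    (primeLocalToGlobal q).range = (primeLocalPlace q).decompositionSubgroup ℚ := by
  have : Fact (q : ℕ).Prime := ⟨q.2⟩
  exact Fermat.Agent.S55.li_range_localGaloisToGlobal (q : ℕ)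

theorem s56gwu_place_liesOver (q : Nat.Primes) : (primeLocalPlace q).LiesOverPrime (q : ℕ) := by
  have : Fact (q : ℕ).Prime := ⟨q.2⟩
  exact Fermat.Agent.S55.pl_padicPlace_liesOver (q : ℕ)

/-- A class which is locally trivial at `q` is represented by cocycles which are coboundaries
on the decomposition group of `primeLocalPlace q`. -/
theorem s56gwu_loc_zero (M : Rep.{0} (ZMod p) GQ) (q : Nat.Primes) (c : cocycles₁ M)
    (h : s56gw_loc M q ((H1π M).hom c) = 0) :
    ∃ m : M, ∀ σ ∈ (primeLocalPlace q).decompositionSubgroup ℚ,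
      (c : GQ → M) σ = M.ρ σ m - m := by
  have h1 : (H1π (s56gw_res M q)).hom
      ((mapCocycles₁ (primeLocalToGlobal q) (𝟙 (s56gw_res M q))).hom c) = 0 := by
    rw [← h]
    exact (H1π_comp_map_apply (primeLocalToGlobal q) (𝟙 (s56gw_res M q)) c).symm
  obtain ⟨m, hm⟩ := (H1π_eq_zero_iff _).1 h1
  refine ⟨m, fun σ hσ => ?_⟩
  rw [← s56gwu_range] at hσ
  obtain ⟨σ', rfl⟩ := hσ
  have h2 := congrFun hm σ'
  exact h2.symm

theorem s56gwu_main : s56gw_Unr_stmt := by
  intro p _ S T M _hsm hur y hy hloc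
  obtain ⟨c, ⟨F, hF, hconst⟩, rfl⟩ := (mem_continuousH1S_iff (S ∪ T) M y).1 hy
  have hFK : F.fixingSubgroup ≤ s56gwu_ker M c :=
    fun s hs => s56gwu_ker_of_const M c s (fun g => hconst g s hs)
  have := hF.1
  obtain ⟨hfix, hle⟩ := s56gwu_fixing_fixed (s56gwu_ker M c) F hFK
  refine (mem_continuousH1S_iff S M _).2
    ⟨c, ⟨IntermediateField.fixedField (s56gwu_ker M c), ⟨?_, ?_⟩, ?_⟩, rfl⟩
  · exact FiniteDimensional.of_injective (IntermediateField.inclusion hle).toLinearMap
      (IntermediateField.inclusion_injective hle)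
  · intro q hqS A hA
    rw [hfix]
    by_cases hqT : q ∈ T
    · -- the inertia groups above `q ∈ T` lie in the kernel of `c`
      obtain ⟨m, hm⟩ := s56gwu_loc_zero M q c (hloc q hqT)
      have : Fact (q : ℕ).Prime := ⟨q.2⟩
      obtain ⟨τ, hτ⟩ := Fermat.Agent.S55.pl_exists_smul_padicPlace (q : ℕ) A hA
      intro i' hi'
      -- `i := τ⁻¹ i' τ` is in the inertia group of `primeLocalPlace q`
      have hi : τ⁻¹ * i' * (τ⁻¹)⁻¹ ∈ (primeLocalPlace q).inertiaSubgroupIn ℚ := by
        have := Fermat.Agent.S55.tl_inertia_conj A τ⁻¹ i' hi'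
        rwa [← hτ, inv_smul_smul] at this
      have hiD : τ⁻¹ * i' * (τ⁻¹)⁻¹ ∈ (primeLocalPlace q).decompositionSubgroup ℚ :=
        ((Fermat.Agent.S55.tl_mem_inertiaSubgroupIn_iff _ _).1 hi).1
      have hiK : τ⁻¹ * i' * (τ⁻¹)⁻¹ ∈ s56gwu_ker M c := by
        rw [s56gwu_mem_ker, hm _ hiD,
          hur q hqS (primeLocalPlace q) (s56gwu_place_liesOver q) _ hi]
        simp
      have hconj := s56gwu_ker_conj M c τ _ hiK (by
        have : τ * (τ⁻¹ * i' * (τ⁻¹)⁻¹) * τ⁻¹ = i' := by group
        rw [this]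
        exact hur q hqS A hA i' hi')
      have : τ * (τ⁻¹ * i' * (τ⁻¹)⁻¹) * τ⁻¹ = i' := by group
      rwa [this] at hconj
    · have hq : q ∉ S ∪ T := by
        rw [Finset.mem_union]; tauto
      exact (hF.2 q hq A hA).trans hFK
  · intro g s hs
    rw [hfix] at hs
    exact s56gwu_ker_const M c g s hs

end main

end Fermat.Agent.S56
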